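/-
Program V (S27), half B, leaf (C3b), part (Z): points of a finitely generated algebra over an
algebraically closed field (Zariski's lemma).  Owner: helper15.  Prefix `v27pt_`.
Mathlib only.
-/
import Mathlib

set_option autoImplicit false
set_option linter.style.haveILetI false
set_option linter.unusedSectionVars false

noncomputable section

namespace Fermat.Agent.V

variable {K B : Type*} [Field K] [CommRing B] [Algebra K B]

/-- A `K`-point of `B` is onto. -/
theorem v27pt_point_surjective (q : B →ₐ[K] K) : Function.Surjective q := fun c =>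
  ⟨algebraMap K B c, by rw [AlgHom.commutes]; rfl⟩

/-- The kernel of a `K`-point is a maximal ideal. -/
theorem v27pt_ker_isMaximal (q : B →ₐ[K] K) : (RingHom.ker q).IsMaximal :=
  RingHom.ker_isMaximal_of_surjective q (v27pt_point_surjective q)

/-- `b - q b` lies in the kernel of the point `q`. -/
theorem v27pt_sub_mem_ker (q : B →ₐ[K] K) (b : B) :
    b - algebraMap K B (q b) ∈ RingHom.ker q := by
  rw [RingHom.mem_ker, map_sub, AlgHom.commutes]
  exact sub_self _

/-- A point is determined by its kernel. -/
theorem v27pt_point_ext {q q' : B →ₐ[K] K} (h : RingHom.ker q = RingHom.ker q') : q = q' := by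
  apply AlgHom.ext
  intro b
  have h1 : b - algebraMap K B (q b) ∈ RingHom.ker q' := h ▸ v27pt_sub_mem_ker q b
  rw [RingHom.mem_ker, map_sub, AlgHom.commutes] at h1
  have h2 : q' b = q b := sub_eq_zero.mp h1
  exact h2.symm

section Zariski

variable [IsAlgClosed K] [Algebra.FiniteType K B]

/-- Zariski's lemma: residue fields of a finitely generated algebra are finite. -/
theorem v27pt_finite_quotient (m : Ideal B) [m.IsMaximal] : Module.Finite K (B ⧸ m) := by
  letI := Ideal.Quotient.field m
  haveI : Algebra.FiniteType K (B ⧸ m) :=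
    Algebra.FiniteType.of_surjective (Ideal.Quotient.mkₐ K m) (Ideal.Quotient.mkₐ_surjective K m)
  exact finite_of_finite_type_of_isJacobsonRing K (B ⧸ m)

theorem v27pt_bijective_quotient (m : Ideal B) [m.IsMaximal] :
    Function.Bijective (algebraMap K (B ⧸ m)) := by
  letI := Ideal.Quotient.field m
  haveI := v27pt_finite_quotient (K := K) m
  haveI : Algebra.IsIntegral K (B ⧸ m) := Algebra.IsIntegral.of_finite K (B ⧸ m)
  exact IsAlgClosed.algebraMap_bijective_of_isIntegral

/-- The `K`-point attached to a maximal ideal. -/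
def v27ptPoint (m : Ideal B) [m.IsMaximal] : B →ₐ[K] K :=
  ((AlgEquiv.ofBijective (Algebra.ofId K (B ⧸ m)) (v27pt_bijective_quotient m)).symm :
    (B ⧸ m) →ₐ[K] K).comp (Ideal.Quotient.mkₐ K m)

theorem v27pt_ker_point (m : Ideal B) [m.IsMaximal] :
    RingHom.ker (v27ptPoint (K := K) m) = m := by
  ext b
  rw [RingHom.mem_ker]
  unfold v27ptPoint
  rw [AlgHom.comp_apply]
  constructor
  · intro h
    have h1 : (Ideal.Quotient.mkₐ K m) b = 0 := by
      have := (AlgEquiv.ofBijective (Algebra.ofId K (B ⧸ m))
        (v27pt_bijective_quotient m)).symm.injective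
      apply this
      rw [map_zero]
      exact h
    exact Ideal.Quotient.eq_zero_iff_mem.mp h1
  · intro h
    have h1 : (Ideal.Quotient.mkₐ K m) b = 0 := Ideal.Quotient.eq_zero_iff_mem.mpr h
    rw [h1, map_zero]

/-- **Zariski's lemma**, point form: every maximal ideal is the kernel of a `K`-point. -/
theorem v27pt_exists_point (m : Ideal B) [m.IsMaximal] :
    ∃ q : B →ₐ[K] K, RingHom.ker q = m :=
  ⟨v27ptPoint m, v27pt_ker_point m⟩

theorem v27pt_finite_quotient_of_isMaximal (m : Ideal B) (hm : m.IsMaximal) :
    Module.Finite K (B ⧸ m) :=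
  haveI := hm
  v27pt_finite_quotient m

end Zariski

end Fermat.Agent.V
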