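/-
Program V (S27), half B, leaf (C3b), part (D): a finitely generated domain of dimension one over an
algebraically closed field whose points are "locally principal" is a Dedekind domain.
Owner: helper15.  Prefix `v27pt_`.  Mathlib only.
-/
import Mathlib
import Fermat.Agent.V.Pts.Zariski

set_option autoImplicit false
set_option linter.style.haveILetI false
set_option linter.unusedSectionVars false

noncomputable section

namespace Fermat.Agent.V

open IsLocalRing

variable {K B : Type*} [Field K] [CommRing B] [IsDomain B] [Algebra K B]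

/-- **Local principality at a prime gives a DVR.**  `P` a nonzero prime of a noetherian domain,
`u ∈ P`, `s ∉ P`, and `s * b ∈ (u)` for every `b ∈ P`. -/
theorem v27pt_isDVR_of_locally_principal [IsNoetherianRing B] (P : Ideal B) [P.IsPrime]
    (hP : P ≠ ⊥) (u s : B) (hu : u ∈ P) (hs : s ∉ P)
    (h : ∀ b ∈ P, ∃ c : B, s * b = u * c) :
    IsDiscreteValuationRing (Localization.AtPrime P) := by
  set L := Localization.AtPrime P with hL
  have hnf : ¬ IsField L := IsLocalization.AtPrime.not_isField B hP L
  have hsu : IsUnit (algebraMap B L s) :=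
    IsLocalization.map_units L (⟨s, hs⟩ : P.primeCompl)
  have hmax : maximalIdeal L = Ideal.span {algebraMap B L u} := by
    rw [← Localization.AtPrime.map_eq_maximalIdeal]
    apply le_antisymm
    · rw [Ideal.map_le_iff_le_comap]
      intro b hb
      rw [Ideal.mem_comap, Ideal.mem_span_singleton']
      obtain ⟨c, hc⟩ := h b hb
      obtain ⟨s', hs'⟩ := hsu.exists_left_inv
      refine ⟨s' * algebraMap B L c, ?_⟩
      calc s' * algebraMap B L c * algebraMap B L u
          = s' * algebraMap B L (u * c) := by rw [map_mul]; ring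
        _ = s' * algebraMap B L (s * b) := by rw [hc]
        _ = (s' * algebraMap B L s) * algebraMap B L b := by rw [map_mul]; ring
        _ = algebraMap B L b := by rw [hs', one_mul]
    · rw [Ideal.span_le, Set.singleton_subset_iff]
      exact Ideal.mem_map_of_mem _ hu
  have hprin : (maximalIdeal L).IsPrincipal := ⟨⟨_, hmax⟩⟩
  exact ((IsDiscreteValuationRing.TFAE L hnf).out 4 0).mp hprin

/-- The generator-wise form of local principality: it is enough to check generators of `P`. -/
theorem v27pt_locally_principal_of_span (P : Ideal B) (S : Set B) (hS : Ideal.span S = P)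
    (u s : B) (h : ∀ b ∈ S, ∃ c : B, s * b = u * c) :
    ∀ b ∈ P, ∃ c : B, s * b = u * c := by
  intro b hb
  rw [← hS] at hb
  refine Submodule.span_induction (p := fun b _ => ∃ c : B, s * b = u * c) ?_ ?_ ?_ ?_ hb
  · intro x hx
    exact h x hx
  · exact ⟨0, by simp⟩
  · rintro x y _ _ ⟨c, hc⟩ ⟨c', hc'⟩
    exact ⟨c + c', by rw [mul_add, mul_add, hc, hc']⟩
  · rintro a x _ ⟨c, hc⟩
    exact ⟨a * c, by rw [smul_eq_mul, mul_left_comm, hc, mul_left_comm]⟩

section Dedekind

variable [IsAlgClosed K] [Algebra.FiniteType K B]

/-- The hypothesis (P3) of the blueprint, generator-free form. -/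
def V27ptP3 (K B : Type*) [Field K] [CommRing B] [Algebra K B] : Prop :=
  ∀ q : B →ₐ[K] K, ∃ u s : B, q u = 0 ∧ q s ≠ 0 ∧ ∀ b : B, q b = 0 → ∃ c : B, s * b = u * c

omit [IsDomain B] [IsAlgClosed K] in
theorem v27pt_isNoetherianRing (K : Type*) {B : Type*} [Field K] [CommRing B] [Algebra K B]
    [Algebra.FiniteType K B] : IsNoetherianRing B :=
  Algebra.FiniteType.isNoetherianRing K B

/-- **(D)** Dimension one + (P3) ⟹ Dedekind. -/
theorem v27pt_isDedekindDomain (hdim : Ring.DimensionLEOne B)
    (hP3 : V27ptP3 K B) : IsDedekindDomain B := by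
  haveI : IsNoetherianRing B := v27pt_isNoetherianRing K
  haveI : IsDedekindDomainDvr B :=
    { is_dvr_at_nonzero_prime := by
        intro P hP hPp
        haveI := hPp
        haveI hPm : P.IsMaximal := hdim.maximalOfPrime hP hPp
        obtain ⟨q, rfl⟩ := v27pt_exists_point (K := K) P
        obtain ⟨u, s, hu, hs, h⟩ := hP3 q
        exact v27pt_isDVR_of_locally_principal (RingHom.ker q) hP u s
          (RingHom.mem_ker.mpr hu) (fun hs' => hs (RingHom.mem_ker.mp hs'))
          (fun b hb => h b (RingHom.mem_ker.mp hb)) }
  exact IsDedekindDomainDvr.isDedekindDomain B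

end Dedekind

/-- A domain integral over a ring of dimension at most one has dimension at most one. -/
theorem v27pt_dimensionLEOne_of_isIntegral (R : Type*) {B : Type*} [CommRing R] [Nontrivial R]
    [Ring.DimensionLEOne R] [CommRing B] [IsDomain B] [Algebra R B] [Algebra.IsIntegral R B] :
    Ring.DimensionLEOne B where
  maximalOfPrime := by
    intro p hp hpp
    haveI := hpp
    have h1 : p.comap (algebraMap R B) ≠ ⊥ := fun h => hp (Ideal.eq_bot_of_comap_eq_bot h)
    have h2 : (p.comap (algebraMap R B)).IsMaximal :=
      Ring.DimensionLEOne.maximalOfPrime h1 (Ideal.comap_isPrime _ _)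
    exact Ideal.isMaximal_of_isIntegral_of_isMaximal_comap p h2

end Fermat.Agent.V
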