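/-
Program V (S27), half B, leaf (C3b), part (I): uniqueness of the place at infinity of a one-point
model, in abstract form.  Owner: helper15.  Prefix `v27pt_`.  Mathlib only.

`M` a field over `K`, `w` a valuation of `M` ("the place at infinity"), `t ∈ M` ("`1/x`"),
`Λ ⊆ M` a subring ("the functions regular near infinity": `⊕_k K[1/x] e_k / x^⌈d_k/N⌉`), with
* `Λ` integral over `K[t]`;
* every element of `𝒪_w` is a quotient `α/β`, `α β ∈ Λ`, `w β = 1`;
* every element of `Λ` with `w < 1` has a power in `t Λ`;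
* every element of `Λ` with `w ≤ 1` is congruent to a constant modulo `w < 1`.
Then every valuation ring of `M` that contains `K` and whose maximal ideal contains `t`
contains `𝒪_w`.
-/
import Mathlib

set_option autoImplicit false
set_option linter.style.haveILetI false
set_option linter.unusedSectionVars false

noncomputable section

namespace Fermat.Agent.V

variable {K M : Type*} [Field K] [Field M] [Algebra K M]

/-- A valuation ring containing `K` and `t` contains every element integral over `K[t]`. -/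
theorem v27pt_mem_of_isIntegral_adjoin (O : ValuationSubring M)
    (hK : ∀ c : K, algebraMap K M c ∈ O) {t : M} (ht : t ∈ O) {y : M}
    (hy : IsIntegral (Algebra.adjoin K {t}) y) : y ∈ O := by
  let OK : Subalgebra K M := { O.toSubring with algebraMap_mem' := hK }
  have hle : Algebra.adjoin K {t} ≤ OK :=
    Algebra.adjoin_le (Set.singleton_subset_iff.mpr ht)
  let φ : ↥(Algebra.adjoin K {t}) →+* ↥O :=
    (Algebra.adjoin K {t}).val.toRingHom.codRestrict O (fun a => hle a.2)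
  have hcomp : (algebraMap ↥O M).comp φ
      = (RingHom.id M).comp (algebraMap ↥(Algebra.adjoin K {t}) M) := RingHom.ext fun a => rfl
  have h1 : IsIntegral ↥O ((RingHom.id M) y) := IsIntegral.map_of_comp_eq φ (RingHom.id M) hcomp hy
  obtain ⟨z, hz⟩ := (IsIntegrallyClosed.isIntegral_iff (R := ↥O) (K := M)).mp h1
  have : (z : M) = y := hz
  rw [← this]
  exact z.2

/-- **(I) The place at infinity is the only one over `t = 0`.** -/
theorem v27pt_le_of_inf {Γ : Type*} [LinearOrderedCommGroupWithZero Γ] (w : Valuation M Γ)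
    (t : M) (Λ : Subring M)
    (hΛK : ∀ c : K, algebraMap K M c ∈ Λ)
    (hint : ∀ y ∈ Λ, IsIntegral (Algebra.adjoin K {t}) y)
    (hfrac : ∀ f : M, w f ≤ 1 → ∃ α ∈ Λ, ∃ β ∈ Λ, w β = 1 ∧ f * β = α)
    (hrad : ∀ β ∈ Λ, w β < 1 → ∃ n : ℕ, ∃ γ ∈ Λ, β ^ n = t * γ)
    (hres : ∀ β ∈ Λ, w β ≤ 1 → ∃ c : K, w (β - algebraMap K M c) < 1)
    (O : ValuationSubring M) (hK : ∀ c : K, algebraMap K M c ∈ O) (ht : t ∈ O)
    (ht' : t⁻¹ ∉ O) : w.valuationSubring ≤ O := by
  set v := O.valuation with hv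
  have hΛO : ∀ y ∈ Λ, v y ≤ 1 := fun y hy =>
    (O.valuation_le_one_iff y).mpr (v27pt_mem_of_isIntegral_adjoin O hK ht (hint y hy))
  have ht0 : t ≠ 0 := by
    rintro rfl
    exact ht' (by rw [inv_zero]; exact O.zero_mem)
  have hvt : v t < 1 := by
    have h1 : ¬ v t⁻¹ ≤ 1 := fun h => ht' ((O.valuation_le_one_iff _).mp h)
    rw [not_le, map_inv₀] at h1
    have h2 : v t ≠ 0 := (Valuation.ne_zero_iff v).mpr ht0
    exact (one_lt_inv₀ (zero_lt_iff.mpr h2)).mp h1
  -- step 2 : `w β < 1 → v β < 1` on `Λ`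
  have step2 : ∀ β ∈ Λ, w β < 1 → v β < 1 := by
    intro β hβ hwβ
    obtain ⟨n, γ, hγ, hn⟩ := hrad β hβ hwβ
    by_contra hcon
    rw [not_lt] at hcon
    have h1 : 1 ≤ v (β ^ n) := by
      rw [map_pow]
      exact one_le_pow₀ hcon
    have h2 : v (β ^ n) < 1 := by
      rw [hn, map_mul]
      calc v t * v γ ≤ v t * 1 := by gcongr; exact hΛO γ hγ
        _ = v t := mul_one _
        _ < 1 := hvt
    exact absurd h1 (not_le.mpr h2)
  -- step 3 : `w β = 1 → v β = 1` on `Λ`
  have step3 : ∀ β ∈ Λ, w β = 1 → v β = 1 := by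
    intro β hβ hwβ
    obtain ⟨c, hc⟩ := hres β hβ hwβ.le
    have hc0 : c ≠ 0 := by
      rintro rfl
      rw [map_zero, sub_zero, hwβ] at hc
      exact lt_irrefl _ hc
    have hvc : v (algebraMap K M c) = 1 := by
      have h1 : v (algebraMap K M c) ≤ 1 := (O.valuation_le_one_iff _).mpr (hK c)
      have h2 : v (algebraMap K M c⁻¹) ≤ 1 := (O.valuation_le_one_iff _).mpr (hK c⁻¹)
      rw [map_inv₀, map_inv₀] at h2
      have h3 : v (algebraMap K M c) ≠ 0 :=
        (Valuation.ne_zero_iff v).mpr (by simpa using hc0)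
      have h4 : 1 ≤ v (algebraMap K M c) := (inv_le_one₀ (zero_lt_iff.mpr h3)).mp h2
      exact le_antisymm h1 h4
    have hβ' : β - algebraMap K M c ∈ Λ := Λ.sub_mem hβ (hΛK c)
    have h5 : v (β - algebraMap K M c) < 1 := step2 _ hβ' hc
    have h6 : β = algebraMap K M c + (β - algebraMap K M c) := by ring
    rw [h6, Valuation.map_add_eq_of_lt_left v (by rw [hvc]; exact h5), hvc]
  -- step 4
  intro f hf
  have hf' : w f ≤ 1 := hf
  obtain ⟨α, hα, β, hβ, hwβ, hfβ⟩ := hfrac f hf'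
  have h1 : v β = 1 := step3 β hβ hwβ
  have h2 : v f = v α := by
    rw [← hfβ, map_mul, h1, mul_one]
  exact (O.valuation_le_one_iff f).mp (h2 ▸ hΛO α hα)

/-- Corollary: a valuation ring `≠ ⊤` containing `K` with `t` in its maximal ideal is `𝒪_w`,
when `𝒪_w` has dimension at most one. -/
theorem v27pt_eq_of_inf {Γ : Type*} [LinearOrderedCommGroupWithZero Γ] (w : Valuation M Γ)
    [Ring.KrullDimLE 1 ↥w.valuationSubring]
    (t : M) (Λ : Subring M)
    (hΛK : ∀ c : K, algebraMap K M c ∈ Λ)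
    (hint : ∀ y ∈ Λ, IsIntegral (Algebra.adjoin K {t}) y)
    (hfrac : ∀ f : M, w f ≤ 1 → ∃ α ∈ Λ, ∃ β ∈ Λ, w β = 1 ∧ f * β = α)
    (hrad : ∀ β ∈ Λ, w β < 1 → ∃ n : ℕ, ∃ γ ∈ Λ, β ^ n = t * γ)
    (hres : ∀ β ∈ Λ, w β ≤ 1 → ∃ c : K, w (β - algebraMap K M c) < 1)
    (O : ValuationSubring M) (hK : ∀ c : K, algebraMap K M c ∈ O) (hO : O ≠ ⊤) (ht : t ∈ O)
    (ht' : t⁻¹ ∉ O) : O = w.valuationSubring :=
  (ValuationSubring.eq_of_le_of_ne_top _
    (v27pt_le_of_inf w t Λ hΛK hint hfrac hrad hres O hK ht ht') hO).symm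

end Fermat.Agent.V
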