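/-
Program V (S27), half B, leaf (C3b), part (P): the places of a one-point model.
`B` a Dedekind domain, finitely generated over an algebraically closed field `K`, `M = Frac B`.
Points `q : B →ₐ[K] K` give places of degree one; a place containing `B` is a point; with a
unique place at infinity, every place is the place at infinity or a point.
Owner: helper15.  Prefix `v27pt_`.
-/
import Mathlib
import Fermat.Prelude.Def_AlgebraicCurve_DivisorClassGroup
import Fermat.Agent.S24.PlacesResidue
import Fermat.Agent.V.Pts.Dvr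
import Fermat.Agent.V.Pts.Inf

set_option autoImplicit false
set_option linter.style.haveILetI false
set_option linter.unusedSectionVars false

noncomputable section

namespace Fermat.Agent.V

open AlgebraicCurve IsDedekindDomain WithZero Polynomial
open Fermat.Agent.S24

variable {K B M : Type*} [Field K] [CommRing B] [IsDedekindDomain B] [Algebra K B]
  [Field M] [Algebra B M] [IsFractionRing B M] [Algebra K M] [IsScalarTower K B M]

/-- The height one prime of a point. -/
def v27ptPrime (hnf : ¬ IsField B) (q : B →ₐ[K] K) : HeightOneSpectrum B :=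
  ⟨RingHom.ker q, (v27pt_ker_isMaximal q).isPrime,
    Ring.ne_bot_of_isMaximal_of_not_isField (v27pt_ker_isMaximal q) hnf⟩

@[simp]
theorem v27ptPrime_asIdeal (hnf : ¬ IsField B) (q : B →ₐ[K] K) :
    (v27ptPrime hnf q).asIdeal = RingHom.ker q := rfl

variable (M) in
/-- The place of `M = Frac B` attached to a point of `B`. -/
def v27ptPlace (hnf : ¬ IsField B) (q : B →ₐ[K] K) : Place K M :=
  Place.ofHeightOneSpectrum (K := K) (F := M) (v27ptPrime hnf q)

theorem v27pt_place_mem (hnf : ¬ IsField B) (q : B →ₐ[K] K) (b : B) :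
    algebraMap B M b ∈ (v27ptPlace M hnf q).toValuationSubring :=
  algebraMap_mem_ofHeightOneSpectrum (K := K) (v27ptPrime hnf q) b

theorem v27pt_place_ord_nonneg (hnf : ¬ IsField B) (q : B →ₐ[K] K) (b : B) :
    0 ≤ (v27ptPlace M hnf q).ord (algebraMap B M b) :=
  PlaceOrd.ord_nonneg_of_mem _ (v27pt_place_mem hnf q b)

theorem v27pt_place_ord_pos_iff (hnf : ¬ IsField B) (q : B →ₐ[K] K) {b : B} (hb : b ≠ 0) :
    0 < (v27ptPlace M hnf q).ord (algebraMap B M b) ↔ q b = 0 := by
  unfold v27ptPlace
  rw [ord_ofHeightOneSpectrum]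
  have hb' : (v27ptPrime hnf q).valuation M (algebraMap B M b) ≠ 0 := by
    rw [Valuation.ne_zero_iff]
    exact (map_ne_zero_iff _ (IsFractionRing.injective B M)).mpr hb
  have h1 : (v27ptPrime hnf q).valuation M (algebraMap B M b) < 1 ↔ b ∈ RingHom.ker q :=
    (v27ptPrime hnf q).valuation_lt_one_iff_mem b
  rw [← RingHom.mem_ker, ← h1, ← log_lt_log hb' one_ne_zero, log_one]
  omega

/-- The value of `b` at the point `q` is the residue of `b` at the place of `q`. -/
theorem v27pt_place_ord_sub_pos (hnf : ¬ IsField B) (q : B →ₐ[K] K) (b : B)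
    (hb : b - algebraMap K B (q b) ≠ 0) :
    0 < (v27ptPlace M hnf q).ord (algebraMap B M (b - algebraMap K B (q b))) := by
  rw [v27pt_place_ord_pos_iff hnf q hb]
  exact RingHom.mem_ker.mp (v27pt_sub_mem_ker q b)

theorem v27pt_finrank_quotient_ker (q : B →ₐ[K] K) :
    Module.finrank K (B ⧸ RingHom.ker q) = 1 := by
  have e : (B ⧸ RingHom.ker (q : B →+* K)) ≃ₐ[K] K :=
    Ideal.quotientKerAlgEquivOfSurjective (f := q) (v27pt_point_surjective q)
  have := e.toLinearEquiv.finrank_eq
  rw [Module.finrank_self] at this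
  exact this

/-- Points have degree one. -/
theorem v27pt_place_deg (hnf : ¬ IsField B) (q : B →ₐ[K] K) :
    (v27ptPlace M hnf q).deg = 1 := by
  unfold v27ptPlace
  rw [deg_ofHeightOneSpectrum]
  exact v27pt_finrank_quotient_ker q

theorem v27pt_place_injective (hnf : ¬ IsField B) :
    Function.Injective (v27ptPlace (K := K) M hnf) := by
  intro q q' h
  have h1 : v27ptPrime hnf q = v27ptPrime hnf q' :=
    ofHeightOneSpectrum_injective (K := K) (F := M) h
  have h2 : RingHom.ker q = RingHom.ker q' := congrArg HeightOneSpectrum.asIdeal h1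
  exact v27pt_point_ext h2

/-- A place is determined among the points by positivity on `B`. -/
theorem v27pt_place_eq_of_forall (hnf : ¬ IsField B) (q : B →ₐ[K] K) (v : Place K M)
    (hv : ∀ b : B, algebraMap B M b ∈ v.toValuationSubring)
    (hq : ∀ b : B, q b = 0 → (algebraMap B M b)⁻¹ ∉ v.toValuationSubring ∨ b = 0) :
    v = v27ptPlace M hnf q := by
  obtain ⟨w, rfl⟩ := exists_eq_ofHeightOneSpectrum (K := K) v hv
  unfold v27ptPlace
  congr 1
  -- `ker q ≤ w`, both maximal
  have hle : RingHom.ker q ≤ w.asIdeal := by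
    intro b hb
    rcases hq b (RingHom.mem_ker.mp hb) with h | h
    · rw [← w.valuation_lt_one_iff_mem (K := M)]
      by_contra hcon
      apply h
      rw [not_lt] at hcon
      show w.valuation M (algebraMap B M b)⁻¹ ≤ 1
      rw [map_inv₀]
      have h0 : w.valuation M (algebraMap B M b) ≠ 0 := fun h0 => by
        rw [h0] at hcon
        exact absurd hcon (not_le.mpr zero_lt_one)
      exact (inv_le_one₀ (zero_lt_iff.mpr h0)).mpr hcon
    · rw [h]
      exact w.asIdeal.zero_mem
  have heq : RingHom.ker q = w.asIdeal :=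
    (v27pt_ker_isMaximal q).eq_of_le w.isPrime.ne_top hle
  exact HeightOneSpectrum.ext heq.symm

section Classification

variable [IsAlgClosed K] [Algebra.FiniteType K B]

/-- **A place whose valuation ring contains `B` is a point.** -/
theorem v27pt_exists_place_eq (hnf : ¬ IsField B) (v : Place K M)
    (hv : ∀ b : B, algebraMap B M b ∈ v.toValuationSubring) :
    ∃ q : B →ₐ[K] K, v = v27ptPlace M hnf q := by
  obtain ⟨w, rfl⟩ := exists_eq_ofHeightOneSpectrum (K := K) v hv
  haveI : w.asIdeal.IsMaximal := w.isMaximal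
  obtain ⟨q, hq⟩ := v27pt_exists_point (K := K) w.asIdeal
  refine ⟨q, ?_⟩
  unfold v27ptPlace
  congr 1
  exact HeightOneSpectrum.ext hq.symm

omit [IsAlgClosed K] [Algebra.FiniteType K B] [IsDedekindDomain B] in
/-- A place containing a subring over which `B` is integral contains `B`. -/
theorem v27pt_mem_of_isIntegral (R : Type*) [CommRing R] [Algebra R B] [Algebra.IsIntegral R B]
    (v : Place K M)
    (hR : ∀ r : R, algebraMap B M (algebraMap R B r) ∈ v.toValuationSubring) (b : B) :
    algebraMap B M b ∈ v.toValuationSubring := by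
  let φ : R →+* ↥v.toValuationSubring :=
    ((algebraMap B M).comp (algebraMap R B)).codRestrict v.toValuationSubring hR
  have hcomp : (algebraMap ↥v.toValuationSubring M).comp φ
      = (algebraMap B M).comp (algebraMap R B) := RingHom.ext fun a => rfl
  have h1 : IsIntegral ↥v.toValuationSubring (algebraMap B M b) :=
    IsIntegral.map_of_comp_eq φ (algebraMap B M) hcomp (Algebra.IsIntegral.isIntegral b)
  obtain ⟨z, hz⟩ :=
    (IsIntegrallyClosed.isIntegral_iff (R := ↥v.toValuationSubring) (K := M)).mp h1
  have : (z : M) = algebraMap B M b := hz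
  rw [← this]
  exact z.2

omit [IsAlgClosed K] [Algebra.FiniteType K B] [IsDedekindDomain B] in
/-- The same for `R = K[X]` acting through `x`. -/
theorem v27pt_mem_of_isIntegral_poly [Algebra K[X] B] [Algebra.IsIntegral K[X] B] (x : B)
    (hx : ∀ p : K[X], algebraMap K[X] B p = aeval x p) (v : Place K M)
    (hxv : algebraMap B M x ∈ v.toValuationSubring) (b : B) :
    algebraMap B M b ∈ v.toValuationSubring := by
  refine v27pt_mem_of_isIntegral K[X] v (fun p => ?_) b
  rw [hx]
  induction p using Polynomial.induction_on' with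
  | add p r hp hr =>
    rw [map_add, map_add]
    exact v.toValuationSubring.add_mem _ _ hp hr
  | monomial n c =>
    rw [aeval_monomial, map_mul, map_pow, ← IsScalarTower.algebraMap_apply]
    exact v.toValuationSubring.mul_mem _ _ (v.algebraMap_mem' c) (pow_mem hxv n)

omit [IsAlgClosed K] [Algebra.FiniteType K B] [IsDedekindDomain B] in
/-- **CLASSIFICATION** : if `Pinf` is the only place that does not contain `x`, and `B` is integral
over `K[x]`, every place is `Pinf` or a point; in particular every place other than `Pinf`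
contains `B` (`hcover` of leaf (C3c)). -/
theorem v27pt_cover [Algebra K[X] B] [Algebra.IsIntegral K[X] B] (x : B)
    (hx : ∀ p : K[X], algebraMap K[X] B p = aeval x p) (Pinf : Place K M)
    (huniq : ∀ v : Place K M, algebraMap B M x ∉ v.toValuationSubring → v = Pinf) :
    ∀ v : Place K M, v ≠ Pinf → ∀ b : B, algebraMap B M b ∈ v.toValuationSubring := by
  intro v hv b
  have hxv : algebraMap B M x ∈ v.toValuationSubring := by
    by_contra h
    exact hv (huniq v h)
  exact v27pt_mem_of_isIntegral_poly x hx v hxv b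

theorem v27pt_place_cases [Algebra K[X] B] [Algebra.IsIntegral K[X] B] (hnf : ¬ IsField B) (x : B)
    (hx : ∀ p : K[X], algebraMap K[X] B p = aeval x p) (Pinf : Place K M)
    (huniq : ∀ v : Place K M, algebraMap B M x ∉ v.toValuationSubring → v = Pinf) :
    ∀ v : Place K M, v = Pinf ∨ ∃ q : B →ₐ[K] K, v = v27ptPlace M hnf q := by
  intro v
  by_cases hv : v = Pinf
  · exact Or.inl hv
  · exact Or.inr (v27pt_exists_place_eq hnf v (v27pt_cover x hx Pinf huniq v hv))

omit [IsAlgClosed K] [Algebra.FiniteType K B] [IsDedekindDomain B] in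
/-- The uniqueness hypothesis `huniq` from the abstract criterion (I): `Pinf` is the place of a
valuation `w`, `t = 1/x`. -/
theorem v27pt_huniq_of_inf {Γ : Type*} [LinearOrderedCommGroupWithZero Γ] (w : Valuation M Γ)
    (Pinf : Place K M) (hPinf : Pinf.toValuationSubring = w.valuationSubring)
    (x : B) (Λ : Subring M)
    (hΛK : ∀ c : K, algebraMap K M c ∈ Λ)
    (hint : ∀ y ∈ Λ, IsIntegral (Algebra.adjoin K {(algebraMap B M x)⁻¹}) y)
    (hfrac : ∀ f : M, w f ≤ 1 → ∃ α ∈ Λ, ∃ β ∈ Λ, w β = 1 ∧ f * β = α)
    (hrad : ∀ β ∈ Λ, w β < 1 → ∃ n : ℕ, ∃ γ ∈ Λ, β ^ n = (algebraMap B M x)⁻¹ * γ)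
    (hres : ∀ β ∈ Λ, w β ≤ 1 → ∃ c : K, w (β - algebraMap K M c) < 1) :
    ∀ v : Place K M, algebraMap B M x ∉ v.toValuationSubring → v = Pinf := by
  intro v hxv
  apply Place.ext
  rw [hPinf]
  haveI : Ring.KrullDimLE 1 ↥w.valuationSubring := by
    rw [← hPinf]
    infer_instance
  have ht : (algebraMap B M x)⁻¹ ∈ v.toValuationSubring :=
    (v.toValuationSubring.mem_or_inv_mem _).resolve_left hxv
  exact v27pt_eq_of_inf w _ Λ hΛK hint hfrac hrad hres v.toValuationSubring v.algebraMap_mem'
    v.ne_top' ht (by rwa [inv_inv])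

end Classification

end Fermat.Agent.V
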